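import Mathlib

/-!
# S22, period-lattice route: the abstract algebra step

If a set `G` of `ℂ`-linear endomorphisms of `V` stabilises (by precomposition) a finitely
generated `ℤ`-submodule `L` of the dual of `V` which separates the points of `V`, then the
`ℤ`-algebra generated by `G` is a finitely generated `ℤ`-module.
-/

set_option autoImplicit false

namespace Fermat.Agent.S22E

theorem comp_mem_of_mem_adjoin {V : Type*} [AddCommGroup V] [Module ℂ V]
    (G : Set (Module.End ℂ V)) (L : Submodule ℤ (V →ₗ[ℂ] ℂ))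
    (hstab : ∀ t ∈ G, ∀ l ∈ L, l ∘ₗ t ∈ L) {t : Module.End ℂ V}
    (ht : t ∈ Algebra.adjoin ℤ G) : ∀ l ∈ L, l ∘ₗ t ∈ L := by
  induction ht using Algebra.adjoin_induction with
  | mem x hx => exact hstab x hx
  | algebraMap r =>
    intro l hl
    have : l ∘ₗ (algebraMap ℤ (Module.End ℂ V) r) = r • l := by
      ext v
      simp [Algebra.algebraMap_eq_smul_one]
    rw [this]
    exact L.smul_mem r hl
  | add x y _ _ hx hy =>
    intro l hl
    rw [LinearMap.comp_add]
    exact L.add_mem (hx l hl) (hy l hl)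
  | mul x y _ _ hx hy =>
    intro l hl
    have : l ∘ₗ (x * y) = (l ∘ₗ x) ∘ₗ y := by
      ext v; simp
    rw [this]
    exact hy _ (hx l hl)

theorem finite_adjoin_of_lattice {V : Type*} [AddCommGroup V] [Module ℂ V]
    (L : Submodule ℤ (V →ₗ[ℂ] ℂ)) (hfg : L.FG)
    (hsep : ∀ v : V, (∀ φ ∈ L, φ v = 0) → v = 0)
    (G : Set (Module.End ℂ V)) (hG : ∀ t ∈ G, ∀ φ ∈ L, φ ∘ₗ t ∈ L) :
    Module.Finite ℤ (Algebra.adjoin ℤ G) := by
  haveI : Module.Finite ℤ L := Module.Finite.iff_fg.mpr hfg
  let Ψ : (Algebra.adjoin ℤ G) →ₗ[ℤ] (L →ₗ[ℤ] L) :=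
    { toFun := fun t =>
        { toFun := fun l => ⟨(l : V →ₗ[ℂ] ℂ) ∘ₗ (t : Module.End ℂ V),
            comp_mem_of_mem_adjoin G L hG t.2 l l.2⟩
          map_add' := fun l l' => by
            apply Subtype.ext
            simp [LinearMap.add_comp]
          map_smul' := fun r l => by
            apply Subtype.ext
            ext v
            simp }
      map_add' := fun t t' => by
        ext l v
        simp
      map_smul' := fun r t => by
        ext l v
        simp }
  have hinj : Function.Injective Ψ := by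
    rw [injective_iff_map_eq_zero]
    intro t ht
    apply Subtype.ext
    ext v
    apply hsep
    intro l hl
    have := congrArg (fun φ : L →ₗ[ℤ] L => ((φ ⟨l, hl⟩ : L) : V →ₗ[ℂ] ℂ) v) ht
    simpa [Ψ] using this
  exact Module.Finite.of_injective Ψ hinj

end Fermat.Agent.S22E
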