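import Mathlib
import Fermat.Prelude.Sol.S_ModularForm_heckeT_slash_eq_self_of_mem_Gamma0

/-!
# Hecke coset representatives times `Γ₀(N)`

For `g ∈ Γ₀(N)` and a Hecke representative `α` (one of `heckeMatrix p j`, `j < p`, or
`heckeDiagMatrix p`), we have `α g = g' α'` with `g' ∈ Γ₀(N)` and `α'` again a representative.
-/

set_option autoImplicit false

namespace Fermat.Agent.S22E

open Matrix.SpecialLinearGroup
open scoped MatrixGroups
open P2MW.S_ModularForm_heckeT_slash_eq_self_of_mem_Gamma0.ModularForm.HeckeSlashInvariance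

/-- `al` is one of the `p + 1` representatives used in the definition of `heckeT`. -/
def IsRepT (p : ℕ) (al : GL (Fin 2) ℝ) : Prop :=
  (∃ j < p, al = ModularForm.heckeMatrix p j) ∨ al = ModularForm.heckeDiagMatrix p

/-- `al` is one of the `p` representatives used in the definition of `heckeU`. -/
def IsRepU (p : ℕ) (al : GL (Fin 2) ℝ) : Prop :=
  ∃ j < p, al = ModularForm.heckeMatrix p j

theorem isRepT_heckeRep (p : ℕ) [NeZero p] (x : OnePoint (ZMod p)) : IsRepT p (heckeRep p x) := by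
  induction x using OnePoint.rec with
  | infty => exact Or.inr rfl
  | coe j => exact Or.inl ⟨j.val, j.val_lt, rfl⟩

theorem exists_heckeRep_of_isRepT (p : ℕ) [NeZero p] {al : GL (Fin 2) ℝ} (h : IsRepT p al) :
    ∃ x : OnePoint (ZMod p), al = heckeRep p x := by
  rcases h with ⟨j, hj, rfl⟩ | rfl
  · refine ⟨((j : ZMod p) : OnePoint (ZMod p)), ?_⟩
    rw [heckeRep_coe, ZMod.val_cast_of_lt hj]
  · exact ⟨OnePoint.infty, rfl⟩

/-- (T): `p ∤ N`. -/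
theorem isRepT_mul {N p : ℕ} (hp : p.Prime) (hpN : ¬ p ∣ N) (g : SL(2, ℤ))
    (hg : g ∈ CongruenceSubgroup.Gamma0 N) {al : GL (Fin 2) ℝ} (hal : IsRepT p al) :
    ∃ g' ∈ CongruenceSubgroup.Gamma0 N, ∃ al' : GL (Fin 2) ℝ, IsRepT p al' ∧
      al * mapGL ℝ g = mapGL ℝ g' * al' := by
  haveI : Fact p.Prime := ⟨hp⟩
  haveI : NeZero p := ⟨hp.ne_zero⟩
  have hcN : (N : ℤ) ∣ g 1 0 :=
    (ZMod.intCast_zmod_eq_zero_iff_dvd _ _).mp (CongruenceSubgroup.Gamma0_mem.mp hg)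
  obtain ⟨x, rfl⟩ := exists_heckeRep_of_isRepT p hal
  obtain ⟨g', hg', hmul⟩ := heckeRep_mul hpN g hcN x
  exact ⟨g', CongruenceSubgroup.Gamma0_mem.mpr ((ZMod.intCast_zmod_eq_zero_iff_dvd _ _).mpr hg'),
    _, isRepT_heckeRep p _, hmul⟩

/-- (U): `p ∣ N`. -/
theorem isRepU_mul {N p : ℕ} (hp : p ≠ 0) (hpN : p ∣ N) (g : SL(2, ℤ))
    (hg : g ∈ CongruenceSubgroup.Gamma0 N) {al : GL (Fin 2) ℝ} (hal : IsRepU p al) :
    ∃ g' ∈ CongruenceSubgroup.Gamma0 N, ∃ al' : GL (Fin 2) ℝ, IsRepU p al' ∧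
      al * mapGL ℝ g = mapGL ℝ g' * al' := by
  haveI : NeZero p := ⟨hp⟩
  have hcN : (N : ℤ) ∣ g 1 0 :=
    (ZMod.intCast_zmod_eq_zero_iff_dvd _ _).mp (CongruenceSubgroup.Gamma0_mem.mp hg)
  have hc : (p : ℤ) ∣ g 1 0 := (Int.natCast_dvd_natCast.mpr hpN).trans hcN
  obtain ⟨j, hj, rfl⟩ := hal
  obtain ⟨g', hg', hmul⟩ := heckeMatrix_mul_of_dvd g hc (j : ZMod p)
  rw [ZMod.val_cast_of_lt hj] at hmul
  refine ⟨g', ?_, _, ⟨_, ZMod.val_lt _, rfl⟩, hmul⟩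
  rw [CongruenceSubgroup.Gamma0_mem, hg']
  push_cast
  rw [CongruenceSubgroup.Gamma0_mem.mp hg, mul_zero]

/-- (T), unfolded form, first kind of representative. -/
theorem heckeMatrix_mul_mapGL {N p : ℕ} (hp : p.Prime) (hpN : ¬ p ∣ N) (g : SL(2, ℤ))
    (hg : g ∈ CongruenceSubgroup.Gamma0 N) {j : ℕ} (hj : j < p) :
    ∃ g' ∈ CongruenceSubgroup.Gamma0 N,
      (∃ j' < p, ModularForm.heckeMatrix p j * mapGL ℝ g
        = mapGL ℝ g' * ModularForm.heckeMatrix p j') ∨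
      ModularForm.heckeMatrix p j * mapGL ℝ g = mapGL ℝ g' * ModularForm.heckeDiagMatrix p := by
  obtain ⟨g', hg', al', hal', h⟩ := isRepT_mul hp hpN g hg (Or.inl ⟨j, hj, rfl⟩)
  rcases hal' with ⟨j', hj', rfl⟩ | rfl
  · exact ⟨g', hg', Or.inl ⟨j', hj', h⟩⟩
  · exact ⟨g', hg', Or.inr h⟩

/-- (T), unfolded form, diagonal representative. -/
theorem heckeDiagMatrix_mul_mapGL {N p : ℕ} (hp : p.Prime) (hpN : ¬ p ∣ N) (g : SL(2, ℤ))
    (hg : g ∈ CongruenceSubgroup.Gamma0 N) :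
    ∃ g' ∈ CongruenceSubgroup.Gamma0 N,
      (∃ j' < p, ModularForm.heckeDiagMatrix p * mapGL ℝ g
        = mapGL ℝ g' * ModularForm.heckeMatrix p j') ∨
      ModularForm.heckeDiagMatrix p * mapGL ℝ g
        = mapGL ℝ g' * ModularForm.heckeDiagMatrix p := by
  obtain ⟨g', hg', al', hal', h⟩ := isRepT_mul hp hpN g hg (Or.inr rfl)
  rcases hal' with ⟨j', hj', rfl⟩ | rfl
  · exact ⟨g', hg', Or.inl ⟨j', hj', h⟩⟩
  · exact ⟨g', hg', Or.inr h⟩

/-- (U), unfolded form. -/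
theorem heckeMatrix_mul_mapGL_of_dvd {N p : ℕ} (hp : p ≠ 0) (hpN : p ∣ N) (g : SL(2, ℤ))
    (hg : g ∈ CongruenceSubgroup.Gamma0 N) {j : ℕ} (hj : j < p) :
    ∃ g' ∈ CongruenceSubgroup.Gamma0 N, ∃ j' < p,
      ModularForm.heckeMatrix p j * mapGL ℝ g = mapGL ℝ g' * ModularForm.heckeMatrix p j' := by
  obtain ⟨g', hg', al', ⟨j', hj', rfl⟩, h⟩ := isRepU_mul hp hpN g hg ⟨j, hj, rfl⟩
  exact ⟨g', hg', j', hj', h⟩

end Fermat.Agent.S22E
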