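import Mathlib

/-!
# `Γ₀(N)` is finitely generated
-/

set_option autoImplicit false

namespace Fermat.Agent.S22E

open Matrix Matrix.SpecialLinearGroup

theorem fg_SL2Z : Group.FG (SpecialLinearGroup (Fin 2) ℤ) := by
  rw [Group.fg_iff]
  exact ⟨{ModularGroup.S, ModularGroup.T}, SpecialLinearGroup.SL2Z_generators,
    Set.toFinite _⟩

theorem fg_Gamma0 (N : ℕ) [NeZero N] : Group.FG (CongruenceSubgroup.Gamma0 N) := by
  haveI := fg_SL2Z
  haveI : (CongruenceSubgroup.Gamma0 N).FiniteIndex := inferInstance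
  exact Subgroup.fg_of_index_ne_zero _

end Fermat.Agent.S22E
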